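import Fermat.Agent.FermatHasseWeil.Main

/-!
# The Galois conjugates of the Jacobi sums

An automorphism `σ` with exponent `t` sends `J_{a,b}(P)` to `J_{at,bt}(P) = J_{a,b}(σ P)`, so the
pairs `(a, b)` at one prime are the pairs `(1, b)` at the conjugate primes.
-/

set_option autoImplicit false
set_option linter.unusedSectionVars false
set_option linter.style.haveILetI false

noncomputable section

open NumberField IsDedekindDomain Ideal
open FA.PowerReciprocity FA.IwasawaStructure FA.GaussValuation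
open scoped Classical

namespace FA.FermatHW

universe u

variable {K : Type u} [Field K] [NumberField K] {l : ℕ} [hl : Fact l.Prime]
  [IsCyclotomicExtension {l} ℚ K]

/-- **Naturality.** -/
theorem jacobiPrime_map {P : Ideal (𝓞 K)} [P.IsMaximal] (hlP : (l : 𝓞 K) ∉ P) (a b : ℕ)
    (e : 𝓞 K ≃+* 𝓞 K) :
    jacobiPrime l a b (P.map (e : 𝓞 K →+* 𝓞 K)) = e (jacobiPrime l a b P) := by
  haveI : (P.map (e : 𝓞 K →+* 𝓞 K)).IsMaximal := Ideal.map_isMaximal_of_equiv e
  let := Fintype.ofFinite (𝓞 K ⧸ P)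
  let := Fintype.ofFinite (𝓞 K ⧸ P.map (e : 𝓞 K →+* 𝓞 K))
  have hmem : ∀ y, e y ∈ P.map (e : 𝓞 K →+* 𝓞 K) ↔ y ∈ P := fun y => by
    rw [Ideal.mem_map_iff_of_surjective (e : 𝓞 K →+* 𝓞 K) e.surjective]
    exact ⟨fun ⟨z, hz, hzy⟩ => e.injective hzy ▸ hz, fun h => ⟨y, h, rfl⟩⟩
  have hlP' : (l : 𝓞 K) ∉ P.map (e : 𝓞 K →+* 𝓞 K) := fun h =>
    hlP ((hmem _).mp (by rwa [map_natCast]))
  let E := Ideal.quotientEquiv P (P.map (e : 𝓞 K →+* 𝓞 K)) e rfl
  simp only [jacobiPrime, finsum_eq_sum_of_fintype, map_neg, map_sum, map_mul, map_pow]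
  refine congrArg Neg.neg (Fintype.sum_equiv E.toEquiv _ _ fun y => ?_).symm
  set x := Function.surjInv Ideal.Quotient.mk_surjective y
  set x' := Function.surjInv Ideal.Quotient.mk_surjective (E.toEquiv y)
  have hx : x' - e x ∈ P.map (e : 𝓞 K →+* 𝓞 K) := by
    rw [← Ideal.Quotient.eq, Function.surjInv_eq Ideal.Quotient.mk_surjective,
      show E.toEquiv y = E (Ideal.Quotient.mk P x) from
        congrArg E (Function.surjInv_eq Ideal.Quotient.mk_surjective y).symm]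
    rfl
  rw [← symbolPrime_map hlP, ← symbolPrime_map hlP,
    symbolPrime_congr hlP' (y := e x) hx,
    symbolPrime_congr hlP' (x := 1 - x') (y := e (1 - x)) (by
      rw [map_sub, map_one, show (1 : 𝓞 K) - x' - (1 - e x) = -(x' - e x) by ring]
      exact neg_mem hx)]

theorem intAut_pow_symbol (σ : K ≃ₐ[ℚ] K) (P : Ideal (𝓞 K)) (x : 𝓞 K) {a : ℕ} (ha : a ≠ 0) :
    haveI : NeZero l := ⟨hl.out.ne_zero⟩
    intAut σ (symbolPrime l P x ^ a) = symbolPrime l P x ^ (a * expo l σ) := by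
  haveI : NeZero l := ⟨hl.out.ne_zero⟩
  by_cases h : ∃ c : 𝓞 K, c ^ l = 1 ∧ x ^ ((Ideal.absNorm P - 1) / l) - c ∈ P
  · rw [show symbolPrime l P x = h.choose from dif_pos h, map_pow,
      intAut_of_pow_eq_one σ h.choose_spec.1, ← pow_mul, mul_comm]
  · rw [show symbolPrime l P x = 0 from dif_neg h, zero_pow ha, map_zero, zero_pow]
    exact mul_ne_zero ha fun e => not_dvd_expo σ (e ▸ dvd_zero l)

/-- **An automorphism multiplies the pair by its exponent.** -/
theorem intAut_jacobiPrime (σ : K ≃ₐ[ℚ] K) {P : Ideal (𝓞 K)} (hP : P ≠ ⊥) {a b : ℕ} (ha : a ≠ 0)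
    (hb : b ≠ 0) : haveI : NeZero l := ⟨hl.out.ne_zero⟩
    intAut σ (jacobiPrime l a b P) = jacobiPrime l (a * expo l σ) (b * expo l σ) P := by
  haveI : NeZero l := ⟨hl.out.ne_zero⟩
  haveI : Finite (𝓞 K ⧸ P) := Ideal.finiteQuotientOfFreeOfNeBot P hP
  let := Fintype.ofFinite (𝓞 K ⧸ P)
  simp only [jacobiPrime, finsum_eq_sum_of_fintype, map_neg, map_sum, map_mul]
  exact congrArg Neg.neg (Finset.sum_congr rfl fun y _ => by
    rw [intAut_pow_symbol σ P _ ha, intAut_pow_symbol σ P _ hb])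

theorem pow_symbol_mod (P : Ideal (𝓞 K)) (x : 𝓞 K) {a : ℕ} (ha : ¬ l ∣ a) :
    symbolPrime l P x ^ a = symbolPrime l P x ^ (a % l) := by
  by_cases h : ∃ c : 𝓞 K, c ^ l = 1 ∧ x ^ ((Ideal.absNorm P - 1) / l) - c ∈ P
  · rw [show symbolPrime l P x = h.choose from dif_pos h, ← pow_eq_pow_mod _ h.choose_spec.1]
  · rw [show symbolPrime l P x = 0 from dif_neg h,
      zero_pow (fun e : a = 0 => ha (by subst e; exact dvd_zero l)),
      zero_pow (fun e : a % l = 0 => ha (Nat.dvd_of_mod_eq_zero e))]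

/-- The Jacobi sums only depend on the classes modulo `l`. -/
theorem jacobiPrime_mod (P : Ideal (𝓞 K)) {a b : ℕ} (ha : ¬ l ∣ a) (hb : ¬ l ∣ b) :
    jacobiPrime l a b P = jacobiPrime l (a % l) (b % l) P := by
  simp only [jacobiPrime, pow_symbol_mod _ _ ha, pow_symbol_mod _ _ hb]

/-- `J_{1,b}` at the conjugate prime. -/
theorem jacobiPrime_conjAt {v : HeightOneSpectrum (𝓞 K)} (hlv : (l : 𝓞 K) ∉ v.asIdeal) {b : ℕ}
    (hb : ¬ l ∣ b) (σ : K ≃ₐ[ℚ] K) : haveI : NeZero l := ⟨hl.out.ne_zero⟩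
    jacobiPrime l (expo l σ) (b * expo l σ % l) v.asIdeal =
      jacobiPrime l 1 b (conjAt v σ⁻¹).asIdeal := by
  haveI : NeZero l := ⟨hl.out.ne_zero⟩
  haveI := v.isMaximal
  rw [show (conjAt v σ⁻¹).asIdeal = v.asIdeal.map (intAut σ : 𝓞 K →+* 𝓞 K) by
      show v.asIdeal.map (intAut σ⁻¹⁻¹ : 𝓞 K →+* 𝓞 K) = _
      rw [inv_inv],
    jacobiPrime_map hlv 1 b (intAut σ),
    intAut_jacobiPrime σ v.ne_bot one_ne_zero (fun e : b = 0 => hb (by subst e; exact dvd_zero l)), one_mul,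
    jacobiPrime_mod (a := expo l σ) (b := b * expo l σ) _ (not_dvd_expo σ)
      (fun e => (hl.out.dvd_mul.mp e).elim hb (not_dvd_expo σ)),
    Nat.mod_eq_of_lt (show expo l σ < l from ZMod.val_lt _)]

/-- **The pairs at one prime are the pairs `(1, b)` at its conjugates**, for every family that an
automorphism moves as it moves the Jacobi sums. -/
theorem sum_pairs_conj {v : HeightOneSpectrum (𝓞 K)} {M : Type*} [AddCommMonoid M]
    (G : ℕ → ℕ → HeightOneSpectrum (𝓞 K) → M)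
    (hG : haveI : NeZero l := ⟨hl.out.ne_zero⟩
      ∀ b, ¬ l ∣ b → ∀ σ : K ≃ₐ[ℚ] K,
        G (expo l σ) (b * expo l σ % l) v = G 1 b (conjAt v σ⁻¹)) :
    ∑ x ∈ pairs l, G x.1 x.2 v =
      ∑ b ∈ Finset.Icc 1 (l - 2), ∑ σ : K ≃ₐ[ℚ] K, G 1 b (conjAt v σ) := by
  haveI : NeZero l := ⟨hl.out.ne_zero⟩
  haveI : IsGalois ℚ K := IsCyclotomicExtension.isGalois {l} ℚ K
  have hbd : ∀ b ∈ Finset.Icc 1 (l - 2), ¬ l ∣ b ∧ ¬ l ∣ b + 1 ∧ b < l := fun b hb => by
    rw [Finset.mem_Icc] at hb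
    refine ⟨fun e => ?_, fun e => ?_, by omega⟩ <;>
    · have := Nat.le_of_dvd (by omega) e
      omega
  set g : ℕ × (K ≃ₐ[ℚ] K) → (_ : ℕ) × ℕ := fun q => ⟨expo l q.2, q.1 * expo l q.2 % l⟩
  set T := Finset.Icc 1 (l - 2) ×ˢ (Finset.univ : Finset (K ≃ₐ[ℚ] K))
  have hinj : Set.InjOn g T := by
    rintro ⟨b, σ⟩ hq ⟨b', σ'⟩ hq' e
    simp only [T, Finset.coe_product, Set.mem_prod, Finset.mem_coe] at hq hq'
    simp only [g, Sigma.mk.injEq, heq_eq_eq] at e
    obtain rfl : σ = σ' :=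
      (IsCyclotomicExtension.Rat.galEquivZMod l K).injective (Units.ext (ZMod.val_injective l e.1))
    have h2 : (b : ZMod l) = b' := by
      have := congrArg (Nat.cast : ℕ → ZMod l) e.2
      rw [ZMod.natCast_mod, ZMod.natCast_mod, Nat.cast_mul, Nat.cast_mul] at this
      refine mul_right_cancel₀ ?_ this
      rw [ne_eq, ZMod.natCast_eq_zero_iff]
      exact not_dvd_expo σ
    have h3 := congrArg ZMod.val h2
    rw [ZMod.val_natCast_of_lt (hbd b hq.1).2.2, ZMod.val_natCast_of_lt (hbd b' hq'.1).2.2] at h3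
    rw [h3]
  have himg : T.image g = pairs l := by
    refine Finset.eq_of_subset_of_card_le (fun x hx => ?_) ?_
    · obtain ⟨⟨b, σ⟩, hq, rfl⟩ := Finset.mem_image.mp hx
      obtain ⟨hb1, hb2, -⟩ := hbd b (Finset.mem_product.mp hq).1
      have ht0 : 0 < expo l σ := Nat.pos_of_ne_zero fun e => not_dvd_expo σ (e ▸ dvd_zero l)
      have htl : expo l σ < l := ZMod.val_lt _
      have hm0 : b * expo l σ % l ≠ 0 := fun e =>
        (hl.out.dvd_mul.mp (Nat.dvd_of_mod_eq_zero e)).elim hb1 (not_dvd_expo σ)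
      have hml := Nat.mod_lt (b * expo l σ) hl.out.pos
      refine mem_pairs.mpr ⟨⟨ht0, show expo l σ ≤ l - 1 by omega⟩, fun e => ?_,
        show 1 ≤ b * expo l σ % l by omega, show b * expo l σ % l ≤ l - 1 by omega⟩
      replace e : b * expo l σ % l = l - expo l σ := e
      refine (hl.out.dvd_mul.mp (show l ∣ (b + 1) * expo l σ from Nat.dvd_of_mod_eq_zero ?_)).elim
        hb2 (not_dvd_expo σ)
      rw [add_mul, one_mul, Nat.add_mod, e, Nat.mod_eq_of_lt htl, Nat.sub_add_cancel htl.le,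
        Nat.mod_self]
    · rw [card_pairs, Finset.card_image_of_injOn hinj, Finset.card_product, Nat.card_Icc,
        Finset.card_univ, ← Nat.card_eq_fintype_card, IsGalois.card_aut_eq_finrank,
        IsCyclotomicExtension.finrank K (Polynomial.cyclotomic.irreducible_rat hl.out.pos),
        Nat.totient_prime hl.out, Nat.mul_comm (l - 1), Nat.add_sub_cancel]
  rw [← himg, Finset.sum_image hinj, Finset.sum_product]
  refine Finset.sum_congr rfl fun b hb => ?_
  rw [Fintype.sum_equiv (Equiv.inv _) (fun σ => G 1 b (conjAt v σ))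
    (fun σ => G 1 b (conjAt v σ⁻¹)) fun σ => by rw [Equiv.inv_apply, inv_inv]]
  exact Finset.sum_congr rfl fun σ _ => hG b (hbd b hb).1 σ

/-- The case of the Jacobi sums. -/
theorem sum_pairs_eq {v : HeightOneSpectrum (𝓞 K)} (hlv : (l : 𝓞 K) ∉ v.asIdeal)
    {M : Type*} [AddCommMonoid M] (F : 𝓞 K → M) :
    ∑ x ∈ pairs l, F (jacobiPrime l x.1 x.2 v.asIdeal) =
      ∑ b ∈ Finset.Icc 1 (l - 2), ∑ σ : K ≃ₐ[ℚ] K, F (jacobiPrime l 1 b (conjAt v σ).asIdeal) :=
  sum_pairs_conj (fun a b w => F (jacobiPrime l a b w.asIdeal))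
    fun _ hb σ => congrArg F (jacobiPrime_conjAt hlv hb σ)

end FA.FermatHW

end
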