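import Fermat.Agent.FermatHasseWeilQ.Equivariance

/-!
# The `l - 2` factors of the L-function over `ℚ`

The completed L-series of the primitive characters of `J_{1,b}`: as `conj ∘ J_{1,b} = J_{1,b} ∘ c`
with `c` the complex conjugation, each is real and so symmetric about `s = 1` up to a sign, and each
is non-zero on `3 / 2 ≤ re s`.
-/

set_option autoImplicit false
set_option linter.unusedSectionVars false
set_option linter.style.haveILetI false

noncomputable section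

open NumberField NumberField.InfinitePlace IsDedekindDomain Ideal
open FA.AlgHecke (IsAlgChar IsPure IsNormPower typeVal)
open FA.PowerReciprocity FA.IwasawaStructure FA.GaussValuation
open scoped nonZeroDivisors Classical ComplexConjugate

namespace FA.FermatHW

universe u

variable {K : Type u} [Field K] [NumberField K] {l : ℕ} [hl : Fact l.Prime]
  [IsCyclotomicExtension {l} ℚ K]

local notation "zl" => IsPrimitiveRoot.toInteger (IsCyclotomicExtension.zeta_spec l ℚ K)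

theorem not_dvd_of_Icc {b : ℕ} (hb : b ∈ Finset.Icc 1 (l - 2)) :
    ¬ l ∣ 1 ∧ ¬ l ∣ b ∧ ¬ l ∣ 1 + b := by
  rw [Finset.mem_Icc] at hb
  refine ⟨fun e => hl.out.ne_one (Nat.dvd_one.mp e), fun e => ?_, fun e => ?_⟩ <;>
  · have := Nat.le_of_dvd (by omega) e
    omega

theorem conjAt_conjAt {c : K ≃ₐ[ℚ] K} (hc : c⁻¹ = c) (v : HeightOneSpectrum (𝓞 K)) :
    conjAt (conjAt v c) c = v := by
  refine HeightOneSpectrum.ext (Ideal.ext fun y => ?_)
  rw [mem_conjAt, mem_conjAt]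
  nth_rewrite 1 [← hc]
  rw [intAut_mul_inv]

/-- The values at the conjugate prime. -/
theorem conj_jacobiPrime_conjAt {c : K ≃ₐ[ℚ] K} (hc : c⁻¹ = c) {φ : K →+* ℂ}
    (hφ : ∀ x : K, conj (φ x) = φ (c x)) {v : HeightOneSpectrum (𝓞 K)} (hv : (l : 𝓞 K) ∉ v.asIdeal)
    (a b : ℕ) :
    conj (φ (jacobiPrime l a b v.asIdeal : K)) = φ (jacobiPrime l a b (conjAt v c).asIdeal : K) := by
  haveI := v.isMaximal
  rw [hφ, ← intAut_coe, show (conjAt v c).asIdeal = v.asIdeal.map (intAut c : 𝓞 K →+* 𝓞 K) by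
      show v.asIdeal.map (intAut c⁻¹ : 𝓞 K →+* 𝓞 K) = _
      rw [hc],
    jacobiPrime_map hv a b (intAut c)]

/-- The value at the prime over `l` of a character with trivial modulus is real. -/
theorem conj_apply_lambdaPrime (hl2 : l ≠ 2) {φ : K →+* ℂ} {a b j : ℕ} {𝔣 : Ideal (𝓞 K)}
    {f : Ideal (𝓞 K) →* ℂ} (h : IsAlgChar 𝔣 (jacobiType φ l a b) f) (hj : absNorm 𝔣 = l ^ j) :
    conj (f (lambdaPrime K l).asIdeal) = f (lambdaPrime K l).asIdeal := by
  haveI : NeZero l := ⟨hl.out.ne_zero⟩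
  have hl3 : 2 < l := lt_of_le_of_ne hl.out.two_le (Ne.symm hl2)
  haveI : IsTotallyComplex K := IsCyclotomicExtension.Rat.isTotallyComplex K hl3
  by_cases hd : (lambdaPrime K l).asIdeal ∣ 𝔣
  · rw [(not_coprime_iff h _).2 hd, map_zero]
  have htop : 𝔣 = ⊤ := by
    by_contra hne
    obtain ⟨M, hM, hle⟩ := Ideal.exists_le_maximal _ hne
    have hm : ((l ^ j : ℕ) : 𝓞 K) ∈ M := hle (hj ▸ Ideal.absNorm_mem 𝔣)
    rw [Nat.cast_pow] at hm
    have hM0 : M ≠ ⊥ := fun e => h.ne_bot (le_bot_iff.1 (e ▸ hle))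
    exact hd (Ideal.dvd_iff_le.2 (hle.trans
      ((natCast_mem_iff hM.isPrime hM0).1 (hM.isPrime.mem_of_pow_mem _ hm)).le))
  obtain ⟨c, hc, -, hconj⟩ := exists_conjAut (l := l) (K := K)
  have hray : ∀ x : 𝓞 K, x ≠ 0 → f (Ideal.span {x}) = typeVal (jacobiType φ l a b) (x : K) :=
    fun x hx => h.ray x ⟨hx, htop ▸ Submodule.mem_top, fun ψ => by
      haveI : IsEmpty (K →+* ℝ) := ⟨fun ψ => not_isReal_iff_isComplex.2
        (IsTotallyComplex.isComplex (InfinitePlace.mk ((Complex.ofRealHom).comp ψ)))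
        (InfinitePlace.isReal_mk_iff.2 (RingHom.ext fun y => Complex.conj_ofReal _))⟩
      exact isEmptyElim ψ⟩
  have hx0 : zl - 1 ≠ 0 := (prime_lambda (l := l) (K := K)).ne_zero
  have hx0' : intAut c (zl - 1) ≠ 0 := (map_ne_zero_iff _ (intAut c).injective).2 hx0
  have hspan : Ideal.span {intAut c (zl - 1)} = (lambdaPrime K l).asIdeal := by
    refine (natCast_mem_iff ((Ideal.span_singleton_prime hx0').2
      ((MulEquiv.prime_iff (intAut c).toMulEquiv).2 prime_lambda))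
      (by rwa [ne_eq, Ideal.span_singleton_eq_bot])).1 (Ideal.mem_span_singleton.2 ?_)
    have hd' : zl - 1 ∣ (l : 𝓞 K) := by exact_mod_cast (lambda_dvd_iff (K := K)).2 (dvd_refl (l : ℤ))
    simpa using map_dvd (intAut c) hd'
  conv_rhs => rw [← hspan]
  rw [hray _ hx0', show (lambdaPrime K l).asIdeal = Ideal.span {zl - 1} from rfl, hray _ hx0,
    typeVal, typeVal, map_prod]
  exact Finset.prod_congr rfl fun σ _ => by rw [map_zpow₀, hconj σ]; rfl

/-- **The factor of `J_{1,b}`.** -/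
theorem exists_realData (φ : K →+* ℂ) (hl2 : l ≠ 2) {b : ℕ} (hb : b ∈ Finset.Icc 1 (l - 2)) :
    ∃ (j : ℕ) (W c : ℂ) (Λ : ℂ → ℂ), j ≤ 2 ∧ (W = 1 ∨ W = -1) ∧
      (c = 0 ∨ ‖c‖ ^ 2 = (l : ℝ)) ∧ Differentiable ℂ Λ ∧
      (∀ s : ℂ, 3 / 2 < s.re → ∃ L : ℂ, L ≠ 0 ∧
        HasProd (fun v : {v : HeightOneSpectrum (𝓞 K) // (l : 𝓞 K) ∉ v.asIdeal} =>
          (1 - φ (jacobiPrime l 1 b v.1.asIdeal : K) *
            ((absNorm v.1.asIdeal : ℕ) : ℂ) ^ (-s))⁻¹) L ∧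
        Λ s = ((|((discr K : ℤ) : ℝ)| * (l : ℝ) ^ j : ℝ) : ℂ) ^ (s / 2) *
          Complex.Gammaℂ s ^ ((l - 1) / 2) * ((1 - c * (l : ℂ) ^ (-s))⁻¹ * L)) ∧
      (∀ s : ℂ, 3 / 2 ≤ s.re → Λ s ≠ 0) ∧ ∀ s : ℂ, Λ s = W * Λ (2 - s) := by
  haveI : NeZero l := ⟨hl.out.ne_zero⟩
  obtain ⟨h1, h2, h3⟩ := not_dvd_of_Icc hb
  obtain ⟨j, f, W, Λ, 𝔣, h₀, hag, -, hj, hN, -, hΛ, hL, hfe⟩ := exists_localData φ hl2 h1 h2 h3
  have hw : IsPure (jacobiType φ l 1 b) 1 := jacobiType_conj h1 h2 h3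
  set lp := lambdaPrime K l
  set c := f lp.asIdeal
  have hval : ∀ v : HeightOneSpectrum (𝓞 K), (l : 𝓞 K) ∉ v.asIdeal →
      f v.asIdeal = φ (jacobiPrime l 1 b v.asIdeal : K) := fun v hv => by
    have hcop := coprime_of_notMem hl2 hv
    have h0 : jacobiChar φ l 1 b v.asIdeal ≠ 0 := fun e => by
      have h4 := norm_sq_jacobiChar (φ := φ) hl2 h1 h2 h3 hcop
      rw [e, norm_zero, zero_pow two_ne_zero, eq_comm, Nat.cast_eq_zero, absNorm_eq_zero_iff] at h4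
      exact v.ne_bot h4
    rw [hag _ v.ne_bot h0, jacobiChar_apply, if_pos hcop, jacobiIdeal_prime v.prime]
  have hcN : c = 0 ∨ ‖c‖ ^ 2 = (l : ℝ) := by
    by_cases hd : lp.asIdeal ∣ 𝔣
    · exact Or.inl ((not_coprime_iff h₀ lp).2 hd)
    · right
      have hne : c ≠ 0 := fun e0 => hd ((not_coprime_iff h₀ lp).1 e0)
      have hcop := (h₀.ne_zero_iff _ lp.ne_bot).1 hne
      have h4 := (h₀.torus hw).norm_eq_one lp.ne_bot (((h₀.torus hw).ne_zero_iff _ lp.ne_bot).2 hcop)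
      rw [FA.IdeleClass.normTwist_apply, norm_mul, absNorm_lambdaPrime hl2,
        Complex.norm_natCast_cpow_of_pos hl.out.pos] at h4
      have hr : (-(((1 : ℤ) : ℂ) / 2)).re = -(1 / 2 : ℝ) := by simp
      rw [hr, Real.rpow_neg (Nat.cast_nonneg _), ← Real.sqrt_eq_rpow,
        mul_inv_eq_one₀ (Real.sqrt_pos.2 (Nat.cast_pos.2 hl.out.pos)).ne'] at h4
      rw [h4, Real.sq_sqrt (Nat.cast_nonneg _)]
  set A : ℝ := |((discr K : ℤ) : ℝ)| * (l : ℝ) ^ j
  have hA : 0 < A := mul_pos (abs_pos.2 (Int.cast_ne_zero.2 (discr_ne_zero K)))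
    (pow_pos (Nat.cast_pos.2 hl.out.pos) _)
  set g := (l - 1) / 2
  set P : ℂ → {v : HeightOneSpectrum (𝓞 K) // (l : 𝓞 K) ∉ v.asIdeal} → ℂ := fun s v =>
    (1 - φ (jacobiPrime l 1 b v.1.asIdeal : K) * ((absNorm v.1.asIdeal : ℕ) : ℂ) ^ (-s))⁻¹ with hP
  have hmain : ∀ s : ℂ, 3 / 2 < s.re → ∃ L : ℂ, L ≠ 0 ∧ HasProd (P s) L ∧
      Λ s = (A : ℂ) ^ (s / 2) * Complex.Gammaℂ s ^ g * ((1 - c * (l : ℂ) ^ (-s))⁻¹ * L) :=
    fun s hs => by
    obtain ⟨L, hL0, hLp, hLe⟩ := hL s hs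
    obtain ⟨_, -, -, hne⟩ := FA.AlgHeckeFE.hasProd_algChar h₀ hw (s := s) (by push_cast; linarith)
    have hx : 1 - c * (l : ℂ) ^ (-s) ≠ 0 := by
      have := hne lp
      rwa [absNorm_lambdaPrime hl2] at this
    refine ⟨(1 - c * (l : ℂ) ^ (-s)) * L, mul_ne_zero hx hL0, ?_,
      by rw [inv_mul_cancel_left₀ hx]; exact hLe⟩
    have h4 := (hasProd_ite_eq lp (1 - c * (l : ℂ) ^ (-s))).mul hLp
    have h5 : Function.mulSupport (fun v => (if v = lp then 1 - c * (l : ℂ) ^ (-s) else 1) *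
        (1 - f v.asIdeal * ((absNorm v.asIdeal : ℕ) : ℂ) ^ (-s))⁻¹) ⊆
        {v : HeightOneSpectrum (𝓞 K) | (l : 𝓞 K) ∉ v.asIdeal} := fun v hv hmem => hv (by
      have := (eq_lambdaPrime_iff v).2 hmem
      subst this
      beta_reduce
      rw [if_pos rfl, absNorm_lambdaPrime hl2, mul_inv_cancel₀ hx])
    refine ((hasProd_subtype_iff_of_mulSupport_subset h5).2 h4).congr_fun fun v => ?_
    show P s v = (if v.1 = lp then _ else _) * _
    rw [if_neg fun e0 => v.2 ((eq_lambdaPrime_iff v.1).1 e0), one_mul, hP, hval _ v.2]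
  have hne₀ : ¬ IsNormPower f := fun ⟨e, he⟩ => not_isNormPower_jacobiChar (φ := φ) hl2 h1 h2 h3
    ⟨e, fun I hI h0 => by rw [← hag I hI h0]; exact he I hI (by rw [hag I hI h0]; exact h0)⟩
  obtain ⟨E, hEd, hE, hE0⟩ := h₀.exists_entire hw hne₀
  have hnz : ∀ s : ℂ, 3 / 2 ≤ s.re → Λ s ≠ 0 := by
    have key : (fun s => Λ s * (A : ℂ) ^ (-(s / 2)) *
        ((2 * (Real.pi : ℂ)) ^ s / 2 * (Complex.Gamma s)⁻¹) ^ g) = E := by
      have hA' : (A : ℂ) ≠ 0 := Complex.ofReal_ne_zero.2 hA.ne'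
      refine eq_of_eq_halfPlane' ((hΛ.mul
          ((differentiable_id.div_const 2).neg.const_cpow (Or.inl hA'))).mul
        (((((differentiable_id).const_cpow (Or.inl (by simp [Real.pi_ne_zero]))).div_const 2).mul
          Complex.differentiable_one_div_Gamma).pow _)) hEd fun s hs => ?_
      have hs' : 1 + ((1 : ℤ) : ℝ) / 2 < s.re := by push_cast; linarith
      obtain ⟨L, -, hLp, hLe⟩ := hL s hs
      obtain ⟨L', hL1, hL2, -⟩ := FA.AlgHeckeFE.hasProd_algChar h₀ hw hs'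
      rw [hLe, ← (hLp.unique hL2).trans (hL1.unique (hE s hs')), Complex.Gammaℂ_def]
      simp only [Complex.cpow_neg]
      have hg : Complex.Gamma s ≠ 0 := Complex.Gamma_ne_zero_of_re_pos (by linarith)
      have hp : (2 * (Real.pi : ℂ)) ^ s ≠ 0 :=
        Complex.cpow_ne_zero_iff.2 (Or.inl (by simp [Real.pi_ne_zero]))
      have hAs : (A : ℂ) ^ (s / 2) ≠ 0 := Complex.cpow_ne_zero_iff.2 (Or.inl hA')
      have hu : (2 * ((2 * (Real.pi : ℂ)) ^ s)⁻¹ * Complex.Gamma s) ^ g *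
          ((2 * (Real.pi : ℂ)) ^ s / 2 * (Complex.Gamma s)⁻¹) ^ g = 1 := by
        rw [← mul_pow]
        field_simp
        simp
      linear_combination (L * ((A : ℂ) ^ (s / 2) * ((A : ℂ) ^ (s / 2))⁻¹)) * hu +
        L * mul_inv_cancel₀ hAs
    intro s hs e
    refine hE0 s (by push_cast; linarith) ?_
    rw [← congrFun key s]
    rw [e, zero_mul, zero_mul]
  obtain ⟨σc, hσc, -, hconj⟩ := exists_conjAut (l := l) (K := K)
  have hinv : Function.Involutive (fun v : HeightOneSpectrum (𝓞 K) => conjAt v σc) :=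
    conjAt_conjAt hσc
  have hl' : ∀ v : HeightOneSpectrum (𝓞 K), (l : 𝓞 K) ∉ v.asIdeal ↔
      (l : 𝓞 K) ∉ (conjAt v σc).asIdeal := fun v => by rw [mem_conjAt, map_natCast]
  have hc : conj c = c := conj_apply_lambdaPrime hl2 h₀ hN
  have hreal : (fun s => conj (Λ (conj s))) = Λ := by
    refine eq_of_eq_halfPlane' (fun s => by
      have h1 := (hΛ (conj s)).conj_conj
      rwa [Complex.conj_conj] at h1) hΛ fun s hs => ?_
    have hs' : 3 / 2 < (conj s).re := by rwa [Complex.conj_re]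
    obtain ⟨L, -, hLp, hLe⟩ := hmain _ hs'
    obtain ⟨L', -, hLp', hLe'⟩ := hmain s hs
    have hcp := hLp.map (starRingEnd ℂ) Complex.continuous_conj
    have hperm := ((hinv.toPerm _).subtypeEquiv hl').hasProd_iff.2 hLp'
    have e : (⇑(starRingEnd ℂ) ∘ P (conj s)) = P s ∘ (hinv.toPerm _).subtypeEquiv hl' :=
      funext fun v => by
      have hn : absNorm (conjAt v.1 σc).asIdeal = absNorm v.1.asIdeal :=
        FA.Ext.absNorm_conjPrime _ _
      show conj (P (conj s) v) = P s ⟨conjAt v.1 σc, _⟩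
      simp only [hP, map_inv₀, map_sub, map_one, map_mul, FA.AlgHeckeFE.conj_natCast_cpow, map_neg,
        Complex.conj_conj, conj_jacobiPrime_conjAt hσc (hconj φ) v.2, hn]
    rw [e] at hcp
    show conj (Λ (conj s)) = Λ s
    rw [hLe, hLe', map_mul, map_mul, map_pow, FA.AlgHeckeFE.conj_ofReal_cpow hA,
      FA.AlgHeckeFE.conj_Gammaℂ, map_div₀, map_ofNat, Complex.conj_conj, map_mul, map_inv₀,
      map_sub, map_one, map_mul, hc, FA.AlgHeckeFE.conj_natCast_cpow, map_neg, Complex.conj_conj,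
      hcp.unique hperm]
  have hfe' : ∀ s, Λ s = W * Λ (2 - s) := fun s => by
    conv_rhs => rw [← hreal]
    rw [hfe s]
    simp only [map_sub, map_ofNat]
  have hWsq : W = 1 ∨ W = -1 := by
    refine mul_self_eq_one_iff.1 (mul_right_cancel₀ (hnz 2 (by norm_num)) ?_)
    have e1 := hfe' 2
    rw [sub_self] at e1
    have e2 := hfe' 0
    rw [sub_zero] at e2
    rw [mul_assoc, ← e2, ← e1, one_mul]
  exact ⟨j, W, c, Λ, hj, hWsq, hcN, hΛ, hmain, hnz, hfe'⟩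

end FA.FermatHW

end
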