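import Fermat.Agent.FermatHasseWeilQ.Equivariance
import Mathlib.FieldTheory.KummerExtension
import Mathlib.FieldTheory.Finite.GaloisField
import Mathlib.RingTheory.RootsOfUnity.Complex

/-!
# The Euler factors over `ℚ` of the Fermat curves

Over a rational prime `q ≠ l` with residue degree `f` the points of the curve over `𝔽_{q ^ d}` number
`q ^ d + 1 - ∑ α ^ d`, the `α` being the `f`-th roots of the `J_{1,b}(w)`, `w ∣ q`.
-/

set_option autoImplicit false
set_option linter.unusedSectionVars false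
set_option linter.style.haveILetI false

noncomputable section

open NumberField IsDedekindDomain Ideal
open FA.PowerReciprocity FA.IwasawaStructure FA.GaussValuation
open scoped Classical

namespace FA.FermatHW

universe u w

variable {K : Type u} [Field K] [NumberField K] {l : ℕ} [hl : Fact l.Prime]
  [IsCyclotomicExtension {l} ℚ K]

/-- The primes with the residue characteristic of `v`. -/
def conjugates (v : HeightOneSpectrum (𝓞 K)) : Finset (HeightOneSpectrum (𝓞 K)) :=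
  Finset.univ.image (conjAt v : (K ≃ₐ[ℚ] K) → _)

variable {q : ℕ} [hq : Fact q.Prime] {v : HeightOneSpectrum (𝓞 K)}

theorem exists_prime_over (q : ℕ) [hq : Fact q.Prime] :
    ∃ v : HeightOneSpectrum (𝓞 K), (q : 𝓞 K) ∈ v.asIdeal := by
  have hne : Ideal.span {(q : 𝓞 K)} ≠ ⊤ := fun e => by
    have h := congrArg Ideal.absNorm e
    rw [absNorm_span_singleton, Ideal.absNorm_top,
      show (q : 𝓞 K) = algebraMap ℤ (𝓞 K) q by simp, Algebra.norm_algebraMap, Int.natAbs_pow,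
      Int.natAbs_natCast] at h
    exact (Nat.one_lt_pow Module.finrank_pos.ne' hq.out.one_lt).ne' h
  obtain ⟨M, hM, hle⟩ := Ideal.exists_le_maximal _ hne
  have hqM : (q : 𝓞 K) ∈ M := hle (Ideal.mem_span_singleton_self _)
  exact ⟨⟨M, hM.isPrime, fun e => by
    rw [e, Submodule.mem_bot, Nat.cast_eq_zero] at hqM
    exact hq.out.ne_zero hqM⟩, hqM⟩

theorem natCast_mem_conjAt (hqv : (q : 𝓞 K) ∈ v.asIdeal) (σ : K ≃ₐ[ℚ] K) :
    (q : 𝓞 K) ∈ (conjAt v σ).asIdeal := by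
  rw [mem_conjAt, map_natCast]
  exact hqv

theorem mem_conjugates_iff (l : ℕ) [hl : Fact l.Prime] [IsCyclotomicExtension {l} ℚ K]
    (hqv : (q : 𝓞 K) ∈ v.asIdeal) {w : HeightOneSpectrum (𝓞 K)} :
    w ∈ conjugates v ↔ (q : 𝓞 K) ∈ w.asIdeal := by
  haveI : NeZero l := ⟨hl.out.ne_zero⟩
  refine ⟨fun h => ?_, fun h => ?_⟩
  · obtain ⟨σ, -, rfl⟩ := Finset.mem_image.mp h
    exact natCast_mem_conjAt hqv σ
  · obtain ⟨σ, rfl⟩ := exists_conjAt_eq l hqv h
    exact Finset.mem_image_of_mem _ (Finset.mem_univ _)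

/-- **The orbit of `v`.** -/
theorem sum_conjAt (hqv : (q : 𝓞 K) ∈ v.asIdeal) (hql : q ≠ l) {M : Type*} [AddCommMonoid M]
    (F : HeightOneSpectrum (𝓞 K) → M) :
    ∑ σ : K ≃ₐ[ℚ] K, F (conjAt v σ) = orderOf (q : ZMod l) • ∑ w ∈ conjugates v, F w := by
  haveI : NeZero l := ⟨hl.out.ne_zero⟩
  have hqm : ¬ q ∣ l := fun e => hql ((Nat.prime_dvd_prime_iff_eq hq.out hl.out).mp e)
  rw [Finset.sum_comp, ← conjugates, Finset.smul_sum]
  refine Finset.sum_congr rfl fun w hw => ?_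
  obtain ⟨τ, -, rfl⟩ := Finset.mem_image.mp hw
  congr 1
  have h := sum_fibre hqv hqm τ (fun _ => 1)
  rw [← Finset.sum_filter, Finset.sum_const, Finset.sum_const, Finset.card_range, smul_eq_mul,
    smul_eq_mul, mul_one, mul_one] at h
  exact h

theorem card_conjugates_mul (hqv : (q : 𝓞 K) ∈ v.asIdeal) (hql : q ≠ l) :
    orderOf (q : ZMod l) * (conjugates v).card = l - 1 := by
  haveI : NeZero l := ⟨hl.out.ne_zero⟩
  haveI : IsGalois ℚ K := IsCyclotomicExtension.isGalois {l} ℚ K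
  have h := sum_conjAt hqv hql (fun _ => (1 : ℕ))
  rw [Finset.sum_const, Finset.sum_const, smul_eq_mul, smul_eq_mul, smul_eq_mul, mul_one, mul_one,
    Finset.card_univ, ← Nat.card_eq_fintype_card, IsGalois.card_aut_eq_finrank,
    IsCyclotomicExtension.finrank K (Polynomial.cyclotomic.irreducible_rat hl.out.pos),
    Nat.totient_prime hl.out] at h
  exact h.symm

theorem natCast_notMem (hqv : (q : 𝓞 K) ∈ v.asIdeal) (hql : q ≠ l) : (l : 𝓞 K) ∉ v.asIdeal :=
  haveI : NeZero l := ⟨hl.out.ne_zero⟩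
  notMem_of_not_dvd (m := l) hqv fun e => hql ((Nat.prime_dvd_prime_iff_eq hq.out hl.out).mp e)

theorem orderOf_pos_of_ne (hql : q ≠ l) : 0 < orderOf (q : ZMod l) := by
  haveI : NeZero l := ⟨hl.out.ne_zero⟩
  have hqm : ¬ q ∣ l := fun e => hql ((Nat.prime_dvd_prime_iff_eq hq.out hl.out).mp e)
  rw [← orderOf_qUnit hqm]
  exact orderOf_pos _

/-- The sum of the powers of a primitive root. -/
theorem sum_pow_primitiveRoot {f : ℕ} {ζ : ℂ} (hζ : IsPrimitiveRoot ζ f) (d : ℕ) :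
    ∑ i ∈ Finset.range f, (ζ ^ i) ^ d = if f ∣ d then (f : ℂ) else 0 := by
  simp only [← pow_mul, mul_comm _ d]
  simp only [pow_mul]
  split_ifs with h
  · simp [(hζ.pow_eq_one_iff_dvd d).mpr h]
  · have h1 : ζ ^ d ≠ 1 := fun e => h ((hζ.pow_eq_one_iff_dvd d).mp e)
    rw [geom_sum_eq h1, pow_right_comm, hζ.pow_eq_one, one_pow, sub_self, zero_div]

/-- The `f`-th roots of a number, as reciprocal roots. -/
theorem prod_one_sub_root {f : ℕ} (hf : 0 < f) {ζ : ℂ} (hζ : IsPrimitiveRoot ζ f) (β x : ℂ) :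
    ∏ i ∈ Finset.range f, (1 - β * ζ ^ i * x) = 1 - β ^ f * x ^ f := by
  have h := congrArg (Polynomial.eval 1) (X_pow_sub_C_eq_prod hζ hf (mul_pow β x f))
  simp only [Polynomial.eval_sub, Polynomial.eval_pow, Polynomial.eval_X, Polynomial.eval_C,
    one_pow, Polynomial.eval_prod] at h
  rw [h]
  exact Finset.prod_congr rfl fun i _ => by ring

/-- The fields with `q ^ (f k)` elements are extensions of degree `k` of the residue field. -/
theorem exists_residueAlgebra (hqv : (q : 𝓞 K) ∈ v.asIdeal) (hql : q ≠ l) (E : Type*) [Field E]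
    [Finite E] {k : ℕ} (hE : Nat.card E = q ^ (orderOf (q : ZMod l) * k)) :
    ∃ _ : Algebra (𝓞 K ⧸ v.asIdeal) E, Module.finrank (𝓞 K ⧸ v.asIdeal) E = k := by
  haveI : NeZero l := ⟨hl.out.ne_zero⟩
  haveI := v.isMaximal
  have hqm : ¬ q ∣ l := fun e => hql ((Nat.prime_dvd_prime_iff_eq hq.out hl.out).mp e)
  set f := orderOf (q : ZMod l)
  have hN : Ideal.absNorm v.asIdeal = q ^ f := absNorm_eq hqv hqm
  haveI : Finite (𝓞 K ⧸ v.asIdeal) := Ideal.finiteQuotientOfFreeOfNeBot _ v.ne_bot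
  let := Ideal.Quotient.field v.asIdeal
  let := Fintype.ofFinite E
  have hcardk : Nat.card (𝓞 K ⧸ v.asIdeal) = q ^ f := by
    rw [← hN, Ideal.absNorm_apply, Submodule.cardQuot_apply]
  haveI : CharP (𝓞 K ⧸ v.asIdeal) q := (CharP.charP_iff_prime_eq_zero hq.out).mpr (by
    rw [← map_natCast (Ideal.Quotient.mk v.asIdeal)]
    exact Ideal.Quotient.eq_zero_iff_mem.mpr hqv)
  haveI : CharP E q := charP_of_card_eq_prime_pow (by rw [← Nat.card_eq_fintype_card]; exact hE)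
  let := ZMod.algebra (𝓞 K ⧸ v.asIdeal) q
  let := ZMod.algebra E q
  have hfk : Module.finrank (ZMod q) (𝓞 K ⧸ v.asIdeal) = f := by
    rw [Module.natCard_eq_pow_finrank (K := ZMod q), Nat.card_zmod] at hcardk
    exact Nat.pow_right_injective hq.out.two_le hcardk
  have hfE : Module.finrank (ZMod q) E = f * k := by
    have h := hE
    rw [Module.natCard_eq_pow_finrank (K := ZMod q), Nat.card_zmod] at h
    exact Nat.pow_right_injective hq.out.two_le h
  obtain ⟨j⟩ := FiniteField.nonempty_algHom_of_finrank_dvd (F := ZMod q) (K := 𝓞 K ⧸ v.asIdeal)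
    (L := E) (by rw [hfk, hfE]; exact dvd_mul_right _ _)
  let := j.toRingHom.toAlgebra
  refine ⟨inferInstance, ?_⟩
  have h := Module.natCard_eq_pow_finrank (K := 𝓞 K ⧸ v.asIdeal) (V := E)
  rw [hE, hcardk, ← pow_mul] at h
  exact (Nat.eq_of_mul_eq_mul_left (orderOf_pos_of_ne hql)
    (Nat.pow_right_injective hq.out.two_le h)).symm

/-- **The extensions of the residue field of `v`.** -/
theorem card_points_of_dvd (hl2 : l ≠ 2) (hqv : (q : 𝓞 K) ∈ v.asIdeal) (hql : q ≠ l) (φ : K →+* ℂ)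
    (E : Type*) [Field E] [Finite E] {k : ℕ}
    (hE : Nat.card E = q ^ (orderOf (q : ZMod l) * k)) :
    (FA.DavenportHasse.fermatPoints E l : ℂ) = (q : ℂ) ^ (orderOf (q : ZMod l) * k) + 1 -
      ∑ x ∈ pairs l, φ (jacobiPrime l x.1 x.2 v.asIdeal : K) ^ k := by
  haveI : NeZero l := ⟨hl.out.ne_zero⟩
  haveI := v.isMaximal
  have hqm : ¬ q ∣ l := fun e => hql ((Nat.prime_dvd_prime_iff_eq hq.out hl.out).mp e)
  have hN : Ideal.absNorm v.asIdeal = q ^ orderOf (q : ZMod l) := absNorm_eq hqv hqm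
  obtain ⟨_, hk⟩ := exists_residueAlgebra hqv hql E hE
  have h1 := congrArg (fun z : 𝓞 K => φ (z : K))
    (FA.DavenportHasse.fermatPoints_residue hl2 (natCast_notMem hqv hql) E)
  rw [hk, hN] at h1
  have hcast : ∀ z : 𝓞 K, φ (z : K) = φ.comp (algebraMap (𝓞 K) K) z := fun _ => rfl
  simp only [hcast, map_sub, map_add, map_pow, map_one, map_natCast, map_sum, Nat.cast_pow,
    ← pow_mul] at h1 ⊢
  rw [h1, pairs, Finset.sum_sigma]

/-- The points when the degree is no multiple of `f`. -/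
theorem card_points_of_not_dvd (E : Type*) [Field E] [Finite E] {d : ℕ}
    (hE : Nat.card E = q ^ d) (hd : ¬ orderOf (q : ZMod l) ∣ d) :
    (FA.DavenportHasse.fermatPoints E l : ℂ) = (q : ℂ) ^ d + 1 := by
  let := Fintype.ofFinite E
  have hg : Nat.gcd l (Fintype.card E - 1) = 1 := by
    refine hl.out.coprime_iff_not_dvd.mpr fun e => hd (orderOf_dvd_of_pow_eq_one ?_)
    rw [← Nat.card_eq_fintype_card, hE,
      ← (Nat.modEq_iff_dvd' (Nat.one_le_pow _ _ hq.out.pos))] at e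
    have := (ZMod.natCast_eq_natCast_iff _ _ _).mpr e
    rw [Nat.cast_one, Nat.cast_pow] at this
    exact this.symm
  have hk : (FA.FermatCount.killed E l).erase 1 = ∅ := by
    rw [← Finset.card_eq_zero, Finset.card_erase_of_mem FA.FermatCount.one_mem_killed,
      FA.FermatCount.card_killed, hg]
  have key : ((FA.FermatCount.affinePoints E l).card : ℂ) + (FA.FermatCount.roots E l (-1)).card =
      (Fintype.card E : ℂ) + 1 := by
    convert FA.FermatCount.card_points (F := E) hl.out.pos using 1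
    rw [Finset.sum_eq_zero fun χ hχ => absurd hχ (by convert Finset.notMem_empty χ; convert hk), add_zero]
  rw [FA.DavenportHasse.fermatPoints_eq, Nat.cast_add, key, ← Nat.card_eq_fintype_card, hE,
    Nat.cast_pow]

/-- **The numbers induced from the primes over `q`**: for `G` of absolute value `√(N w)` their
power sums are the traces of the permutation of the primes twisted by `G`. -/
theorem exists_inducedRoots (v : HeightOneSpectrum (𝓞 K)) (q : ℕ) [hq : Fact q.Prime]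
    (hqv : (q : 𝓞 K) ∈ v.asIdeal) (hql : q ≠ l) (G : ℕ → HeightOneSpectrum (𝓞 K) → ℂ)
    (hG : ∀ b ∈ Finset.Icc 1 (l - 2), ∀ w : HeightOneSpectrum (𝓞 K), (q : 𝓞 K) ∈ w.asIdeal →
      ‖G b w‖ ^ 2 = ((Ideal.absNorm w.asIdeal : ℕ) : ℝ)) :
    ∃ α : Fin ((l - 1) * (l - 2)) → ℂ,
      (∀ i, ‖α i‖ ^ 2 = (q : ℝ)) ∧
      (∀ d, ¬ orderOf (q : ZMod l) ∣ d → ∑ i, α i ^ d = 0) ∧
      (∀ k, ∑ i, α i ^ (orderOf (q : ZMod l) * k) =
        ∑ b ∈ Finset.Icc 1 (l - 2), ∑ σ : K ≃ₐ[ℚ] K, G b (conjAt v σ) ^ k) ∧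
      ∀ T : Finset (HeightOneSpectrum (𝓞 K)), (∀ w, w ∈ T ↔ (q : 𝓞 K) ∈ w.asIdeal) → ∀ s : ℂ,
        ∏ i, (1 - α i * (q : ℂ) ^ (-s)) = ∏ w ∈ T, ∏ b ∈ Finset.Icc 1 (l - 2),
          (1 - G b w * ((Ideal.absNorm w.asIdeal : ℕ) : ℂ) ^ (-s)) := by
  haveI : NeZero l := ⟨hl.out.ne_zero⟩
  have hqm : ¬ q ∣ l := fun e => hql ((Nat.prime_dvd_prime_iff_eq hq.out hl.out).mp e)
  set f := orderOf (q : ZMod l)
  have hf : 0 < f := orderOf_pos_of_ne hql
  obtain ⟨ζ, hζ⟩ : ∃ ζ : ℂ, IsPrimitiveRoot ζ f := ⟨_, Complex.isPrimitiveRoot_exp f hf.ne'⟩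
  set β : ℕ → HeightOneSpectrum (𝓞 K) → ℂ := fun b w => G b w ^ ((f : ℂ)⁻¹)
  have hβ : ∀ b w, β b w ^ f = G b w := fun b w => Complex.cpow_nat_inv_pow _ hf.ne'
  let I := (Finset.Icc 1 (l - 2) ×ˢ conjugates v) ×ˢ Finset.range f
  have hI : I.card = (l - 1) * (l - 2) := by
    rw [Finset.card_product, Finset.card_product, Nat.card_Icc, Finset.card_range, mul_assoc,
      mul_comm _ f, card_conjugates_mul hqv hql, Nat.add_sub_cancel, mul_comm]
  obtain ⟨e⟩ : Nonempty (Fin ((l - 1) * (l - 2)) ≃ I) :=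
    ⟨(Fintype.equivFinOfCardEq (by rw [Fintype.card_coe, hI])).symm⟩
  let g : (ℕ × HeightOneSpectrum (𝓞 K)) × ℕ → ℂ := fun x => β x.1.1 x.1.2 * ζ ^ x.2
  have hpow : ∀ d, ∑ i, g (e i).1 ^ d = ∑ b ∈ Finset.Icc 1 (l - 2), ∑ w ∈ conjugates v,
      β b w ^ d * if f ∣ d then (f : ℂ) else 0 := fun d => by
    rw [e.sum_comp (fun x : I => g x.1 ^ d), Finset.sum_coe_sort I fun x => g x ^ d,
      Finset.sum_product, Finset.sum_product]
    refine Finset.sum_congr rfl fun b _ => Finset.sum_congr rfl fun w _ => ?_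
    rw [← sum_pow_primitiveRoot hζ d, Finset.mul_sum]
    exact Finset.sum_congr rfl fun i _ => mul_pow _ _ d
  refine ⟨fun i => g (e i).1, fun i => ?_, fun d hd => ?_, fun k => ?_, fun T hT s => ?_⟩
  · beta_reduce
    generalize e i = x
    obtain ⟨⟨⟨b, w⟩, k⟩, hx⟩ := x
    simp only [I, Finset.mem_product] at hx
    have hw := (mem_conjugates_iff l hqv).mp hx.1.2
    have h := hG b hx.1.1 w hw
    rw [absNorm_eq hw hqm, Nat.cast_pow] at h
    show ‖β b w * ζ ^ k‖ ^ 2 = (q : ℝ)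
    rw [norm_mul, norm_pow, hζ.norm'_eq_one hf.ne', one_pow, mul_one]
    refine (pow_left_inj₀ (sq_nonneg _) (Nat.cast_nonneg _) hf.ne').1 ?_
    rw [← h, ← pow_mul, mul_comm, pow_mul, ← norm_pow, hβ]
  · beta_reduce
    simp only [hpow, if_neg hd, mul_zero, Finset.sum_const_zero]
  · beta_reduce
    rw [hpow]
    refine Finset.sum_congr rfl fun b _ => ?_
    rw [sum_conjAt hqv hql (fun w => G b w ^ k), if_pos (dvd_mul_right f k), nsmul_eq_mul,
      ← Finset.sum_mul, mul_comm]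
    exact congrArg (_ * ·) (Finset.sum_congr rfl fun w _ => by rw [pow_mul, hβ])
  · obtain rfl : T = conjugates v :=
      Finset.ext fun w => (hT w).trans (mem_conjugates_iff l hqv).symm
    rw [e.prod_comp (fun x : I => 1 - g x.1 * (q : ℂ) ^ (-s)),
      Finset.prod_coe_sort I fun x => 1 - g x * (q : ℂ) ^ (-s), Finset.prod_product,
      Finset.prod_product, Finset.prod_comm]
    refine Finset.prod_congr rfl fun w hw => Finset.prod_congr rfl fun b _ => ?_
    simp only [g]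
    rw [prod_one_sub_root hf hζ, hβ, absNorm_eq ((mem_conjugates_iff l hqv).mp hw) hqm, Nat.cast_pow,
      ← Complex.cpow_nat_mul, Complex.natCast_cpow_natCast_mul]

/-- **The reciprocal roots at `q`.** -/
theorem exists_localRoots (hl2 : l ≠ 2) (φ : K →+* ℂ) (q : ℕ) [hq : Fact q.Prime] (hql : q ≠ l) :
    ∃ α : Fin ((l - 1) * (l - 2)) → ℂ,
      (∀ i, ‖α i‖ ^ 2 = (q : ℝ)) ∧
      (∀ (E : Type w) [Field E] [Finite E] (d : ℕ), Nat.card E = q ^ d →
        (Nat.card (FermatCurvePoint E l) : ℂ) = (q : ℂ) ^ d + 1 - ∑ i, α i ^ d) ∧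
      ∀ T : Finset (HeightOneSpectrum (𝓞 K)), (∀ w, w ∈ T ↔ (q : 𝓞 K) ∈ w.asIdeal) → ∀ s : ℂ,
        ∏ i, (1 - α i * (q : ℂ) ^ (-s)) = ∏ w ∈ T, ∏ b ∈ Finset.Icc 1 (l - 2),
          (1 - φ (jacobiPrime l 1 b w.asIdeal : K) *
            ((Ideal.absNorm w.asIdeal : ℕ) : ℂ) ^ (-s)) := by
  obtain ⟨v, hqv⟩ := exists_prime_over (K := K) q
  obtain ⟨α, h1, h2, h3, h4⟩ := exists_inducedRoots v q hqv hql
    (fun b w => φ (jacobiPrime l 1 b w.asIdeal : K)) fun b hb w hw => by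
      have hcop := coprime_of_notMem hl2 (natCast_notMem hw hql)
      obtain ⟨hb1, hb2⟩ := Finset.mem_Icc.mp hb
      have hJ := norm_sq_jacobiChar (φ := φ) hl2 (a := 1) (b := b)
        (fun e => hl.out.ne_one (Nat.dvd_one.mp e))
        (fun e => by have := Nat.le_of_dvd (by omega) e; omega)
        (fun e => by have := Nat.le_of_dvd (by omega) e; omega) hcop
      rwa [jacobiChar_apply, if_pos hcop, jacobiIdeal_prime w.prime] at hJ
  refine ⟨α, h1, fun E _ _ d hE => ?_, h4⟩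
  rw [card_fermatCurvePoint hl.out.ne_zero]
  by_cases hd : orderOf (q : ZMod l) ∣ d
  · obtain ⟨k, rfl⟩ := hd
    rw [card_points_of_dvd hl2 hqv hql φ E hE, h3, sum_pairs_eq (natCast_notMem hqv hql)
      (fun z : 𝓞 K => φ (z : K) ^ k)]
  · rw [h2 d hd, sub_zero]
    exact card_points_of_not_dvd E hE hd

end FA.FermatHW

end
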