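import Fermat.Agent.FermatHasseWeilQ.Factor
import Fermat.Agent.FermatHasseWeilQ.Local

/-!
# The L-function of a Fermat curve over `ℚ`

The primes of `ℚ(ζ_l)` are grouped by their residue characteristic: the Euler factor of the curve at
`q ≠ l` is the product over `b ≤ l - 2` and `w ∣ q` of the factors of `J_{1,b}` at `w`.
-/

set_option autoImplicit false
set_option linter.unusedSectionVars false
set_option linter.style.haveILetI false

noncomputable section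

open NumberField IsDedekindDomain Ideal
open FA.PowerReciprocity FA.IwasawaStructure FA.GaussValuation
open scoped Classical ComplexConjugate

namespace FA.FermatHW

universe u w

variable {K : Type u} [Field K] [NumberField K] {l : ℕ} [hl : Fact l.Prime]
  [IsCyclotomicExtension {l} ℚ K]

theorem existsUnique_prime_mem (v : HeightOneSpectrum (𝓞 K)) :
    ∃! p : Nat.Primes, (p : 𝓞 K) ∈ v.asIdeal := by
  haveI := v.isMaximal
  haveI : Finite (𝓞 K ⧸ v.asIdeal) := Ideal.finiteQuotientOfFreeOfNeBot _ v.ne_bot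
  let := Fintype.ofFinite (𝓞 K ⧸ v.asIdeal)
  let := Ideal.Quotient.field v.asIdeal
  obtain ⟨p, hp⟩ := CharP.exists (𝓞 K ⧸ v.asIdeal)
  have hiff : ∀ n : ℕ, (n : 𝓞 K) ∈ v.asIdeal ↔ p ∣ n := fun n => by
    rw [← Ideal.Quotient.eq_zero_iff_mem, map_natCast, CharP.cast_eq_zero_iff (𝓞 K ⧸ v.asIdeal) p]
  have hprime : p.Prime := CharP.char_is_prime (𝓞 K ⧸ v.asIdeal) p
  exact ⟨⟨p, hprime⟩, (hiff p).2 dvd_rfl, fun q hq => Subtype.ext
    ((Nat.prime_dvd_prime_iff_eq hprime q.2).1 ((hiff q).1 hq)).symm⟩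

/-- **The L-function over `ℚ` and its functional equation.** -/
theorem exists_hasseWeilRat (hl2 : l ≠ 2) (φ : K →+* ℂ) :
    ∃ (α : Nat.Primes → Fin ((l - 1) * (l - 2)) → ℂ) (c : Fin (l - 2) → ℂ) (N : ℕ) (W : ℂ)
      (Λ : ℂ → ℂ),
      (∀ p : Nat.Primes, (p : ℕ) ≠ l → (∀ i, ‖α p i‖ ^ 2 = (p : ℝ)) ∧
        ∀ (E : Type w) [Field E] [Finite E] (d : ℕ), Nat.card E = (p : ℕ) ^ d →
          (Nat.card (FermatCurvePoint E l) : ℂ) = (p : ℂ) ^ d + 1 - ∑ i, α p i ^ d) ∧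
      (∀ i, c i = 0 ∨ ‖c i‖ ^ 2 = (l : ℝ)) ∧ N ≤ l * (l - 2) ∧ (W = 1 ∨ W = -1) ∧
      Differentiable ℂ Λ ∧
      (∀ s : ℂ, 3 / 2 < s.re → ∃ L : ℂ, L ≠ 0 ∧
        HasProd (fun p : {p : Nat.Primes // (p : ℕ) ≠ l} =>
          (∏ i, (1 - α p.1 i * (p.1 : ℂ) ^ (-s)))⁻¹) L ∧
        Λ s = ((l : ℝ) ^ N : ℝ) ^ (s / 2) * Complex.Gammaℂ s ^ ((l - 1) * (l - 2) / 2) *
          ((∏ i, (1 - c i * (l : ℂ) ^ (-s)))⁻¹ * L)) ∧
      (∀ s : ℂ, 3 / 2 ≤ s.re → Λ s ≠ 0) ∧ ∀ s : ℂ, Λ s = W * Λ (2 - s) := by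
  haveI : NeZero l := ⟨hl.out.ne_zero⟩
  -- the local roots
  have hex : ∀ p : Nat.Primes, ∃ α : Fin ((l - 1) * (l - 2)) → ℂ, (p : ℕ) ≠ l →
      (∀ i, ‖α i‖ ^ 2 = ((p : ℕ) : ℝ)) ∧
      (∀ (E : Type w) [Field E] [Finite E] (d : ℕ), Nat.card E = (p : ℕ) ^ d →
        (Nat.card (FermatCurvePoint E l) : ℂ) = ((p : ℕ) : ℂ) ^ d + 1 - ∑ i, α i ^ d) ∧
      ∀ T : Finset (HeightOneSpectrum (𝓞 K)), (∀ v, v ∈ T ↔ ((p : ℕ) : 𝓞 K) ∈ v.asIdeal) →
        ∀ s : ℂ, ∏ i, (1 - α i * ((p : ℕ) : ℂ) ^ (-s)) = ∏ v ∈ T, ∏ b ∈ Finset.Icc 1 (l - 2),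
          (1 - φ (jacobiPrime l 1 b v.asIdeal : K) *
            ((absNorm v.asIdeal : ℕ) : ℂ) ^ (-s)) := fun p => by
    by_cases hp : (p : ℕ) = l
    · exact ⟨0, fun h => absurd hp h⟩
    · haveI : Fact (p : ℕ).Prime := ⟨p.2⟩
      obtain ⟨α, h⟩ := exists_localRoots.{u, w} hl2 φ (p : ℕ) hp
      exact ⟨α, fun _ => h⟩
  choose α hα using hex
  -- the factors
  have hbs : ∀ b : Finset.Icc 1 (l - 2), _ := fun b => exists_realData φ hl2 b.2
  choose j W c Λ hj hW hc hΛ hL hnz hfe using hbs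
  have hcard : Fintype.card (Finset.Icc 1 (l - 2)) = l - 2 := by
    rw [Fintype.card_coe, Nat.card_Icc, Nat.add_sub_cancel]
  obtain ⟨e⟩ : Nonempty (Fin (l - 2) ≃ Finset.Icc 1 (l - 2)) :=
    ⟨(Fintype.equivFinOfCardEq hcard).symm⟩
  refine ⟨α, fun i => c (e i), (l - 2) * (l - 2) + ∑ b, j b, ∏ b, W b, fun s => ∏ b, Λ b s,
    fun p hp => ⟨(hα p hp).1, (hα p hp).2.1⟩, fun i => hc _, ?_,
    Finset.prod_induction W (fun z => z = 1 ∨ z = -1) ?_ (Or.inl rfl) fun b _ => hW b,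
    Differentiable.fun_finsetProd fun b _ => hΛ b, fun s hs => ?_,
    fun s hs => Finset.prod_ne_zero_iff.2 fun b _ => hnz b s hs, fun s => ?_⟩
  · have h2 : ∑ b, j b ≤ 2 * (l - 2) := by
      calc ∑ b, j b ≤ ∑ _b : Finset.Icc 1 (l - 2), 2 := Finset.sum_le_sum fun b _ => hj b
        _ = 2 * (l - 2) := by rw [Finset.sum_const, Finset.card_univ, hcard, smul_eq_mul, mul_comm]
    calc (l - 2) * (l - 2) + ∑ b, j b ≤ (l - 2) * (l - 2) + 2 * (l - 2) := by omega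
      _ = l * (l - 2) := by rw [← add_mul, Nat.sub_add_cancel hl.out.two_le]
  · rintro a b (rfl | rfl) (rfl | rfl) <;> simp
  · choose L hL0 hLp hLe using fun b => hL b s hs
    refine ⟨∏ b, L b, Finset.prod_ne_zero_iff.2 fun b _ => hL0 b, ?_, ?_⟩
    · have hall := hasProd_prod (s := Finset.univ) fun b _ => hLp b
      choose π hπ hπu using fun v : HeightOneSpectrum (𝓞 K) => existsUnique_prime_mem (K := K) v
      let ρ : {v : HeightOneSpectrum (𝓞 K) // (l : 𝓞 K) ∉ v.asIdeal} →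
          {p : Nat.Primes // (p : ℕ) ≠ l} := fun v => ⟨π v.1, fun h => v.2 (by
        have := hπ v.1
        beta_reduce at this
        rwa [h] at this)⟩
      refine HasProd.sigma ((Equiv.sigmaFiberEquiv ρ).hasProd_iff.2 hall) fun p => ?_
      haveI : Fact (p.1 : ℕ).Prime := ⟨p.1.2⟩
      obtain ⟨v₁, hv₁⟩ := exists_prime_over (K := K) (p.1 : ℕ)
      have hmem : ∀ x : {v // ρ v = p}, ((p.1 : ℕ) : 𝓞 K) ∈ x.1.1.asIdeal := fun x => by
        have h := hπ x.1.1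
        beta_reduce at h
        rwa [show π x.1.1 = p.1 from congrArg Subtype.val x.2] at h
      haveI : Finite {v // ρ v = p} := Finite.of_injective
        (fun x => (⟨x.1.1, (mem_conjugates_iff l hv₁).2 (hmem x)⟩ : conjugates v₁))
        fun x y h => Subtype.ext (Subtype.ext (congrArg Subtype.val h :))
      let := Fintype.ofFinite {v // ρ v = p}
      let T : Finset (HeightOneSpectrum (𝓞 K)) :=
        Finset.univ.map ⟨fun x : {v // ρ v = p} => x.1.1, fun x y h => Subtype.ext (Subtype.ext h)⟩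
      have hT : ∀ v, v ∈ T ↔ ((p.1 : ℕ) : 𝓞 K) ∈ v.asIdeal := fun v => by
        simp only [T, Finset.mem_map, Finset.mem_univ, true_and]
        exact ⟨fun ⟨x, hx⟩ => hx ▸ hmem x, fun h =>
          ⟨⟨⟨v, natCast_notMem h p.2⟩, Subtype.ext (hπu v p.1 h).symm⟩, rfl⟩⟩
      convert hasProd_fintype _ using 1
      rw [(hα p.1 p.2).2.2 T hT s, Finset.prod_map, ← Finset.prod_inv_distrib]
      refine Finset.prod_congr rfl fun x _ => ?_
      rw [← Finset.prod_inv_distrib, ← Finset.prod_coe_sort]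
      rfl
    · simp only [hLe, Finset.prod_mul_distrib, Finset.prod_inv_distrib, Finset.prod_const,
        Finset.card_univ, hcard, ← pow_mul]
      refine congrArg₂ (· * ·) (congrArg₂ (· * ·) ?_ ?_) (congrArg (· * ∏ b, L b) ?_)
      · rw [prod_cpow_ofReal _ fun b => by positivity, Finset.prod_mul_distrib, Finset.prod_const,
          Finset.card_univ, hcard, Finset.prod_pow_eq_pow_sum,
          IsCyclotomicExtension.Rat.discr_prime l K, Int.cast_mul, Int.cast_pow, Int.cast_pow,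
          Int.cast_neg, Int.cast_one, Int.cast_natCast, abs_mul, abs_pow, abs_neg, abs_one, one_pow,
          one_mul, abs_pow, Nat.abs_cast, ← pow_mul, ← pow_add]
      · obtain ⟨k, hk⟩ := hl.out.odd_of_ne_two hl2
        rw [hk, show 2 * k + 1 - 1 = 2 * k by omega, Nat.mul_div_cancel_left k two_pos,
          mul_assoc 2 k, Nat.mul_div_cancel_left _ two_pos]
      · exact congrArg Inv.inv (Fintype.prod_equiv e _ _ fun i => rfl).symm
  · rw [← Finset.prod_mul_distrib]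
    exact Finset.prod_congr rfl fun b _ => hfe b s

end FA.FermatHW

end
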